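/-
Program A / `HeckeOperatorsCommuteBar` chain of helper60, leaf (P1) (helper73): the norm commutes
with a base change of fields along which the degree is preserved and the image spans.

`norm_baseChange` : for `β : F →+* K₁`, `β' : F' →+* M` over it (`β' ∘ algebraMap = algebraMap ∘ β`),
`[F' : F] = [M : K₁]` and `M = K₁ · β'(F')`,   `N_{M/K₁}(β' t) = β (N_{F'/F} t)`.

Mathlib only.
-/
import Mathlib

set_option autoImplicit false

noncomputable section

namespace Fermat.Agent.S29.H73

open Module

section

variable {F F' K₁ M : Type*} [Field F] [Field F'] [Field K₁] [Field M]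
  [Algebra F F'] [Algebra K₁ M]

/-- The image under `β'` of an `F`-linear combination is the corresponding `K₁`-linear
combination of the images. -/
theorem map_sum_smul_baseChange (β : F →+* K₁) (β' : F' →+* M)
    (hcomm : ∀ a : F, β' (algebraMap F F' a) = algebraMap K₁ M (β a))
    {ι : Type*} (s : Finset ι) (c : ι → F) (x : ι → F') :
    β' (∑ i ∈ s, c i • x i) = ∑ i ∈ s, β (c i) • β' (x i) := by
  rw [map_sum]
  refine Finset.sum_congr rfl fun i _ => ?_
  rw [Algebra.smul_def, map_mul, hcomm, Algebra.smul_def]

/-- The images of an `F`-basis of `F'` span `M` over `K₁` as soon as the image of `β'` does. -/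
theorem top_le_span_range_baseChange (β : F →+* K₁) (β' : F' →+* M)
    (hcomm : ∀ a : F, β' (algebraMap F F' a) = algebraMap K₁ M (β a))
    (hspan : Submodule.span K₁ (Set.range β') = ⊤)
    {ι : Type*} [Fintype ι] (b : Basis ι F F') :
    ⊤ ≤ Submodule.span K₁ (Set.range fun i => β' (b i)) := by
  rw [← hspan]
  refine Submodule.span_le.mpr ?_
  rintro _ ⟨x, rfl⟩
  have hx : x = ∑ i, b.repr x i • b i := (b.sum_repr x).symm
  rw [SetLike.mem_coe, hx, map_sum_smul_baseChange β β' hcomm]
  exact Submodule.sum_mem _ fun i _ =>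
    Submodule.smul_mem _ _ (Submodule.subset_span ⟨i, rfl⟩)

/-- **(P1) norm base change.** -/
theorem norm_baseChange [Module.Finite F F'] (β : F →+* K₁) (β' : F' →+* M)
    (hcomm : ∀ a : F, β' (algebraMap F F' a) = algebraMap K₁ M (β a))
    (hrank : Module.finrank F F' = Module.finrank K₁ M)
    (hspan : Submodule.span K₁ (Set.range β') = ⊤) (t : F') :
    Algebra.norm K₁ (β' t) = β (Algebra.norm F t) := by
  classical
  set b : Basis (Fin (finrank F F')) F F' := Module.finBasis F F' with hb
  have hle : ⊤ ≤ Submodule.span K₁ (Set.range fun i => β' (b i)) :=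
    top_le_span_range_baseChange β β' hcomm hspan b
  have hcard : Fintype.card (Fin (finrank F F')) = finrank K₁ M := by
    rw [Fintype.card_fin, hrank]
  set b' : Basis (Fin (finrank F F')) K₁ M :=
    basisOfTopLeSpanOfCardEqFinrank (fun i => β' (b i)) hle hcard with hb'
  have hb'i : ∀ i, b' i = β' (b i) := fun i => by
    rw [hb', coe_basisOfTopLeSpanOfCardEqFinrank]
  have hmat : Algebra.leftMulMatrix b' (β' t) = (Algebra.leftMulMatrix b t).map β := by
    ext i j
    rw [Algebra.leftMulMatrix_eq_repr_mul, Matrix.map_apply, Algebra.leftMulMatrix_eq_repr_mul]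
    have h1 : β' t * b' j = ∑ k, β (b.repr (t * b j) k) • b' k := by
      rw [hb'i, ← map_mul]
      conv_lhs => rw [← b.sum_repr (t * b j)]
      rw [map_sum_smul_baseChange β β' hcomm]
      exact Finset.sum_congr rfl fun k _ => by rw [hb'i]
    rw [h1, map_sum]
    simp only [map_smul, Basis.repr_self, Finsupp.coe_finsetSum, Finsupp.coe_smul,
      Finset.sum_apply, Pi.smul_apply, smul_eq_mul, Finsupp.single_apply, mul_ite, mul_one,
      mul_zero, Finset.sum_ite_eq', Finset.mem_univ, if_true]
  rw [Algebra.norm_eq_matrix_det b' (β' t), hmat, Algebra.norm_eq_matrix_det b t, RingHom.map_det]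
  rfl

end

end Fermat.Agent.S29.H73
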